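import Fermat.Agent.SmallPrimes.NoTorsion
import Fermat.Agent.X13.Frey
import Fermat.Agent.Torsion.QBar
import Fermat.Prelude.Def_FLTPrelim_CofixedLine
import Mathlib.Algebra.Algebra.Rat
import Mathlib.FieldTheory.Perfect
import Mathlib.FieldTheory.Galois.Infinite
import Mathlib.GroupTheory.Perm.Cycle.Type

/-!
# The Frey curve has no cofixed line for `p = 5, 7`, given quotients by stable subgroups
-/

set_option autoImplicit false

namespace FLTAgent.SmallPrimes

open WeierstrassCurve WeierstrassCurve.Affine WeierstrassCurve.Affine.Point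
open scoped WeierstrassCurve.Affine

local notation "Qbar" => AlgebraicClosure ℚ

theorem isGalois_qbar : IsGalois ℚ Qbar := by
  have : IsAlgClosure ℚ Qbar := ⟨inferInstance, AlgebraicClosure.isAlgebraic ℚ⟩
  have : Algebra.IsAlgebraic ℚ Qbar := AlgebraicClosure.isAlgebraic ℚ
  have : Normal ℚ Qbar := IsAlgClosure.normal ℚ Qbar
  exact ⟨⟩

/-- Quotients by finite Galois-stable subgroups of odd order exist for `W`. -/
def HasOddQuotients (W : WeierstrassCurve ℚ) : Prop :=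
  ∀ (C : AddSubgroup (W⁄Qbar).Point), Finite C → Odd (Nat.card C) →
    (∀ (σ : Qbar ≃ₐ[ℚ] Qbar), ∀ P ∈ C, σ • P ∈ C) →
    ∃ (W' : WeierstrassCurve ℚ) (φ : (W⁄Qbar).Point →+ (W'⁄Qbar).Point),
      φ.ker = C ∧ ∀ (σ : Qbar ≃ₐ[ℚ] Qbar) (P : (W⁄Qbar).Point), φ (σ • P) = σ • φ P

/-- A cofixed line gives an equivariant map to a curve with a rational point of order `p`,
with kernel killed by `p`. -/
theorem exists_map_of_cofixed {W : WeierstrassCurve ℚ} [W.IsElliptic] (hquot : HasOddQuotients W)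
    {p : ℕ} [hp : Fact p.Prime] (hp2 : p ≠ 2)
    (h : HasGaloisStableCofixedLine (K := Qbar) ℚ W p) :
    ∃ (W' : WeierstrassCurve ℚ) (φ : (W⁄Qbar).Point →+ (W'⁄Qbar).Point),
      (∀ (σ : Qbar ≃ₐ[ℚ] Qbar) (P : (W⁄Qbar).Point), φ (σ • P) = σ • φ P) ∧
      (∀ P : (W⁄Qbar).Point, φ P = 0 → p • P = 0) ∧
      ∃ R : (W'⁄ℚ).Point, addOrderOf R = p := by
  obtain ⟨N, hN, -, htop, hcof⟩ := h
  have : (W⁄Qbar).IsElliptic := inferInstanceAs (W.map (algebraMap ℚ Qbar)).IsElliptic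
  have := Torsion.finite_torsionBy (W := W⁄Qbar) hp.out.ne_zero
  set C : AddSubgroup (W⁄Qbar).Point :=
    N.toAddSubgroup.map (Submodule.torsionBy ℤ (W⁄Qbar).Point (p : ℤ)).subtype.toAddMonoidHom
    with hC
  have hCp : ∀ P ∈ C, p • P = 0 := by
    rintro P ⟨x, -, rfl⟩
    rw [← natCast_zsmul]
    exact (Submodule.mem_torsionBy_iff _ _).mp x.2
  have hfin : Finite C := by
    refine Finite.of_injective
      (fun P : C => (⟨P.1, (Submodule.mem_torsionBy_iff _ _).mpr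
        (by rw [natCast_zsmul]; exact hCp _ P.2)⟩ : Submodule.torsionBy ℤ (W⁄Qbar).Point (p : ℤ))) ?_
    intro P Q hPQ
    exact Subtype.ext (congrArg Subtype.val hPQ :)
  have hodd : Odd (Nat.card C) := by
    rw [← Nat.not_even_iff_odd]
    intro heven
    obtain ⟨x, hx⟩ := exists_prime_addOrderOf_dvd_card' (G := C) 2 (even_iff_two_dvd.mp heven)
    have hxp : p • x = 0 := Subtype.ext (hCp _ x.2)
    have := addOrderOf_dvd_iff_nsmul_eq_zero.mpr hxp
    rw [hx] at this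
    exact hp2 ((Nat.prime_dvd_prime_iff_eq Nat.prime_two hp.out).mp this).symm
  have hstab : ∀ (σ : Qbar ≃ₐ[ℚ] Qbar), ∀ P ∈ C, σ • P ∈ C := by
    rintro σ P ⟨x, hx, rfl⟩
    exact ⟨σ • x, hN σ x hx, rfl⟩
  obtain ⟨W', φ, hker, hequiv⟩ := hquot C hfin hodd hstab
  refine ⟨W', φ, hequiv, fun P hP => hCp P (hker ▸ hP), ?_⟩
  obtain ⟨x, -, hx⟩ := SetLike.exists_of_lt (lt_top_iff_ne_top.mpr htop)
  have hxC : φ (x : (W⁄Qbar).Point) ≠ 0 := by
    intro h0
    have : (x : (W⁄Qbar).Point) ∈ C := hker ▸ h0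
    obtain ⟨y, hy, hyx⟩ := this
    exact hx (Subtype.ext hyx ▸ hy)
  have hfix : ∀ σ : Qbar ≃ₐ[ℚ] Qbar, σ • φ (x : (W⁄Qbar).Point) = φ x := by
    intro σ
    have hmem : ((σ • x - x : Submodule.torsionBy ℤ (W⁄Qbar).Point (p : ℤ)) : (W⁄Qbar).Point) ∈
        φ.ker := by rw [hker]; exact ⟨_, hcof σ x, rfl⟩
    rw [AddMonoidHom.mem_ker, Submodule.coe_sub, map_sub, sub_eq_zero] at hmem
    rw [← hequiv]
    exact hmem
  have : IsGalois ℚ Qbar := isGalois_qbar
  obtain ⟨R, hR⟩ := (Torsion.mem_range_baseChange_iff_smul_eq ℚ W' _).mpr hfix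
  refine ⟨R, addOrderOf_eq_prime ?_ ?_⟩
  · refine Affine.Point.map_injective (Algebra.ofId ℚ Qbar) ?_
    rw [map_nsmul, _root_.map_zero]
    change p • Affine.Point.baseChange ℚ Qbar R = 0
    rw [hR, ← map_nsmul, ← natCast_zsmul, (Submodule.mem_torsionBy_iff _ _).mp x.2, _root_.map_zero]
  · rintro rfl
    exact hxC (by rw [← hR, _root_.map_zero])

/-- Transfer of rational 2-torsion points. -/
theorem exists_two_torsion_image {W W' : WeierstrassCurve ℚ} {p : ℕ} (hp : Odd p)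
    (φ : (W⁄Qbar).Point →+ (W'⁄Qbar).Point)
    (hequiv : ∀ (σ : Qbar ≃ₐ[ℚ] Qbar) (P : (W⁄Qbar).Point), φ (σ • P) = σ • φ P)
    (hker : ∀ P : (W⁄Qbar).Point, φ P = 0 → p • P = 0)
    {S T : (W⁄ℚ).Point} (hS : S + S = 0) (hT : T + T = 0) (hS0 : S ≠ 0) (hT0 : T ≠ 0)
    (hST : S ≠ T) :
    ∃ S' T' : (W'⁄ℚ).Point, S' + S' = 0 ∧ T' + T' = 0 ∧ S' ≠ 0 ∧ T' ≠ 0 ∧ S' ≠ T' := by
  have : IsGalois ℚ Qbar := isGalois_qbar
  have hinj : ∀ P : (W⁄Qbar).Point, P + P = 0 → φ P = 0 → P = 0 := by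
    intro P hPP hP
    obtain ⟨k, hk⟩ := hp
    have := hker P hP
    rwa [hk, add_nsmul, mul_nsmul, two_nsmul, hPP, nsmul_zero, zero_add, one_nsmul] at this
  have hinjb := Affine.Point.map_injective (W' := W) (Algebra.ofId ℚ Qbar)
  let ψ : (W⁄ℚ).Point →+ (W'⁄Qbar).Point := φ.comp (Affine.Point.baseChange ℚ Qbar)
  have hψ : ∀ P : (W⁄ℚ).Point, P + P = 0 → ψ P = 0 → P = 0 := by
    intro P hPP hP
    refine hinjb ?_
    rw [_root_.map_zero]
    refine hinj _ ?_ hP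
    rw [← map_add, hPP, _root_.map_zero]
  have hdesc : ∀ P : (W⁄ℚ).Point, ∃ P' : (W'⁄ℚ).Point,
      Affine.Point.baseChange ℚ Qbar P' = ψ P := fun P =>
    (Torsion.mem_range_baseChange_iff_smul_eq ℚ W' _).mpr fun σ => by
      change σ • φ _ = φ _
      rw [← hequiv, algEquiv_smul_def, Affine.Point.map_baseChange]
  obtain ⟨S', hS'⟩ := hdesc S
  obtain ⟨T', hT'⟩ := hdesc T
  have hinjb' := Affine.Point.map_injective (W' := W') (Algebra.ofId ℚ Qbar)
  refine ⟨S', T', ?_, ?_, ?_, ?_, ?_⟩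
  · refine hinjb' ?_
    rw [map_add, _root_.map_zero]
    change Affine.Point.baseChange ℚ Qbar S' + Affine.Point.baseChange ℚ Qbar S' = 0
    rw [hS', ← map_add, hS, _root_.map_zero]
  · refine hinjb' ?_
    rw [map_add, _root_.map_zero]
    change Affine.Point.baseChange ℚ Qbar T' + Affine.Point.baseChange ℚ Qbar T' = 0
    rw [hT', ← map_add, hT, _root_.map_zero]
  · rintro rfl
    exact hS0 (hψ S hS (by rw [← hS', _root_.map_zero]))
  · rintro rfl
    exact hT0 (hψ T hT (by rw [← hT', _root_.map_zero]))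
  · rintro rfl
    have hsub : S - T + (S - T) = 0 := by rw [sub_add_sub_comm, hS, hT, sub_zero]
    exact hST (sub_eq_zero.mp (hψ _ hsub (by rw [map_sub, ← hS', ← hT', sub_self])))

theorem frey_a₁ (P : FreyPackage) : P.freyCurve.a₁ = 1 := rfl

/-- The two rational points of order two `(0,0)` and `(A/4, -A/8)` of the Frey curve. -/
theorem frey_exists_two_torsion (P : FreyPackage) :
    ∃ S T : (P.freyCurve⁄ℚ).Point, S + S = 0 ∧ T + T = 0 ∧ S ≠ 0 ∧ T ≠ 0 ∧ S ≠ T := by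
  have := X13.isElliptic_freyCurve P
  have : (P.freyCurve⁄ℚ).IsElliptic :=
    inferInstanceAs (P.freyCurve.map (algebraMap ℚ ℚ)).IsElliptic
  have h0 : (P.freyCurve⁄ℚ).Nonsingular 0 0 := by
    refine equation_iff_nonsingular.mp ?_
    rw [equation_iff]
    simp [WeierstrassCurve.baseChange, FreyPackage.freyCurve]
  have h1 : (P.freyCurve⁄ℚ).Nonsingular ((P.a : ℚ) ^ P.p / 4) (-((P.a : ℚ) ^ P.p) / 8) := by
    refine equation_iff_nonsingular.mp ?_
    rw [equation_iff]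
    simp [WeierstrassCurve.baseChange, FreyPackage.freyCurve]
    ring
  refine ⟨Point.some 0 0 h0, Point.some _ _ h1, Point.add_self_of_Y_eq ?_,
    Point.add_self_of_Y_eq ?_, Point.some_ne_zero _, Point.some_ne_zero _, ?_⟩
  · simp [negY, WeierstrassCurve.baseChange, FreyPackage.freyCurve]
  · simp [negY, WeierstrassCurve.baseChange, FreyPackage.freyCurve]; ring
  · rw [ne_eq, Point.some.injEq]
    rintro ⟨hx, -⟩
    have : (P.a : ℚ) ^ P.p ≠ 0 := pow_ne_zero _ (Int.cast_ne_zero.mpr P.ha0)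
    exact this (by linarith)

/-- `p = 5, 7`: no cofixed line on the Frey curve. -/
theorem frey_no_cofixed_five_seven (P : FreyPackage) (hquot : HasOddQuotients P.freyCurve)
    (hp : P.p = 5 ∨ P.p = 7) :
    ¬ HasGaloisStableCofixedLine (K := Qbar) ℚ P.freyCurve P.p := by
  intro h
  have := X13.isElliptic_freyCurve P
  have : Fact P.p.Prime := ⟨P.pp⟩
  obtain ⟨W', φ, hequiv, hker, R, hR⟩ := exists_map_of_cofixed hquot (by omega) h
  obtain ⟨S, T, hS, hT, hS0, hT0, hST⟩ := frey_exists_two_torsion P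
  obtain ⟨S', T', hS', hT', hS0', hT0', hST'⟩ :=
    exists_two_torsion_image P.hp_odd φ hequiv hker hS hT hS0 hT0 hST
  rcases hp with h5 | h7
  · exact no_order_five_and_two_two (hR.trans h5) hS0' hT0' hST' hS' hT'
  · exact no_order_seven_and_two (hR.trans h7) hS0' hS'

end FLTAgent.SmallPrimes
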