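import Mathlib.RingTheory.PrincipalIdealDomain
import Mathlib.RingTheory.Int.Basic
import Mathlib.RingTheory.Coprime.Lemmas
import Mathlib.Tactic.LinearCombination

/-!
# Elementary lemmas for the descents at the primes 5 and 7
-/

set_option autoImplicit false

namespace FLTAgent.SmallPrimes

/-- If `X + Y` is prime to `X * Y`, then `X` is prime to `Y`. -/
theorem isCoprime_of_sum {X Y : ℤ} (h : IsCoprime (X + Y) (X * Y)) : IsCoprime X Y := by
  obtain ⟨a, b, hab⟩ := h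
  exact ⟨a, a + b * X, by linear_combination hab⟩

theorem fourth_root_of_nonneg {X Y v : ℤ} (hc : IsCoprime X Y) (hX : 0 ≤ X)
    (h : X * Y = v ^ 4) : ∃ a : ℤ, X = a ^ 4 := by
  obtain ⟨a, ha⟩ := exists_associated_pow_of_mul_eq_pow' hc h
  have h4 : (0 : ℤ) ≤ a ^ 4 := (show Even 4 by decide).pow_nonneg a
  rcases Int.associated_iff.mp ha with h' | h'
  · exact ⟨a, h'.symm⟩
  · exact ⟨a, by omega⟩

/-- Coprime factors of a prime power times a fourth power. -/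
theorem split_pos {X Y v p : ℤ} (k : ℕ) (hp : Prime p) (hp0 : 0 < p) (hX : 0 < X) (hY : 0 < Y)
    (hc : IsCoprime X Y) (h : X * Y = p ^ k * v ^ 4) :
    ∃ a b : ℤ, a * b = v ∧ IsCoprime a b ∧
      ((X = p ^ k * a ^ 4 ∧ Y = b ^ 4) ∨ (X = b ^ 4 ∧ Y = p ^ k * a ^ 4)) := by
  wlog hd : p ^ k ∣ X generalizing X Y
  · have hd' : p ^ k ∣ Y := by
      by_cases hpX : p ∣ X
      · exfalso
        apply hd
        have hpY : ¬ p ∣ Y := fun hpY => hp.not_isUnit (hc.isUnit_of_dvd' hpX hpY)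
        exact hp.pow_dvd_of_dvd_mul_right k hpY ⟨v ^ 4, h⟩
      · exact hp.pow_dvd_of_dvd_mul_left k hpX ⟨v ^ 4, h⟩
    obtain ⟨a, b, hab, hco, hcase⟩ := this hY hX hc.symm (by linear_combination h) hd'
    exact ⟨a, b, hab, hco, by tauto⟩
  obtain ⟨X', rfl⟩ := hd
  have hq : (0 : ℤ) < p ^ k := pow_pos hp0 k
  have hX' : 0 < X' := pos_of_mul_pos_right hX hq.le
  have h' : X' * Y = v ^ 4 := mul_left_cancel₀ hq.ne' (by linear_combination h)
  have hc' : IsCoprime X' Y := hc.of_mul_left_right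
  obtain ⟨a, ha⟩ := fourth_root_of_nonneg hc' hX'.le h'
  obtain ⟨b, hb⟩ := fourth_root_of_nonneg hc'.symm hY.le ((mul_comm Y X').trans h')
  have hco : IsCoprime a b := by
    rw [ha, hb] at hc'
    exact (IsCoprime.pow_iff (by norm_num) (by norm_num)).mp hc'
  have h4 : (a * b) ^ 4 = v ^ 4 := by rw [mul_pow, ← ha, ← hb, h']
  have h2 : (a * b) ^ 2 = v ^ 2 := by
    have h22 : ((a * b) ^ 2) ^ 2 = (v ^ 2) ^ 2 := by rw [← pow_mul, ← pow_mul]; exact h4
    exact (sq_eq_sq₀ (sq_nonneg _) (sq_nonneg _)).mp h22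
  rcases sq_eq_sq_iff_eq_or_eq_neg.mp h2 with hv | hv
  · exact ⟨a, b, hv, hco, Or.inl ⟨by rw [ha], hb⟩⟩
  · exact ⟨-a, b, by linear_combination -hv, hco.neg_left,
      Or.inl ⟨by rw [ha]; ring, hb⟩⟩

/-- Signed version: the sum and the difference of the two factors. -/
theorem split_signed {X Y v p : ℤ} (k : ℕ) (hp : Prime p) (hp0 : 0 < p) (hv : v ≠ 0)
    (hc : IsCoprime X Y) (h : X * Y = p ^ k * v ^ 4) :
    ∃ a b : ℤ, a * b = v ∧ IsCoprime a b ∧
      (X + Y = p ^ k * a ^ 4 + b ^ 4 ∨ X + Y = -(p ^ k * a ^ 4 + b ^ 4)) ∧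
      (Y - X = p ^ k * a ^ 4 - b ^ 4 ∨ Y - X = -(p ^ k * a ^ 4 - b ^ 4)) := by
  have hq : (0 : ℤ) < p ^ k := pow_pos hp0 k
  have hXY : 0 < X * Y := by
    rw [h]
    exact mul_pos hq ((show Even 4 by decide).pow_pos hv)
  rcases mul_pos_iff.mp hXY with ⟨hX, hY⟩ | ⟨hX, hY⟩
  · obtain ⟨a, b, hab, hco, ⟨e1, e2⟩ | ⟨e1, e2⟩⟩ := split_pos k hp hp0 hX hY hc h
    · exact ⟨a, b, hab, hco, Or.inl (by linear_combination e1 + e2),
        Or.inr (by linear_combination e2 - e1)⟩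
    · exact ⟨a, b, hab, hco, Or.inl (by linear_combination e1 + e2),
        Or.inl (by linear_combination e2 - e1)⟩
  · obtain ⟨a, b, hab, hco, ⟨e1, e2⟩ | ⟨e1, e2⟩⟩ :=
      split_pos (X := -X) (Y := -Y) (v := v) k hp hp0 (by omega) (by omega) hc.neg_neg
        (by linear_combination h)
    · exact ⟨a, b, hab, hco, Or.inr (by linear_combination -(e1 + e2)),
        Or.inl (by linear_combination -(e2 - e1))⟩
    · exact ⟨a, b, hab, hco, Or.inr (by linear_combination -(e1 + e2)),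
        Or.inr (by linear_combination -(e2 - e1))⟩

theorem not_both_even {u v : ℤ} (h : IsCoprime u v) (hu : Even u) (hv : Even v) : False :=
  Int.prime_two.not_isUnit (h.isUnit_of_dvd' (even_iff_two_dvd.mp hu) (even_iff_two_dvd.mp hv))

theorem natAbs_right_le_of_mul {a b v : ℤ} (hv : v ≠ 0) (h : a * b = v) :
    b.natAbs ≤ v.natAbs :=
  Int.natAbs_le_of_dvd_ne_zero ⟨a, by rw [← h, mul_comm]⟩ hv

theorem natAbs_left_le_of_mul {a b v : ℤ} (hv : v ≠ 0) (h : a * b = v) :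
    a.natAbs ≤ v.natAbs :=
  Int.natAbs_le_of_dvd_ne_zero ⟨b, h.symm⟩ hv

end FLTAgent.SmallPrimes
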