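import Fermat.Agent.SmallPrimes.Arith
import Mathlib.Data.ZMod.Basic
import Mathlib.Tactic.LinearCombination
import Mathlib.Tactic.Linarith
import Mathlib.Tactic.Ring

/-!
# The quartic `w² = u⁴ - 11u²v² - v⁴`

Two descents of degree two bring a solution back to a smaller one.  This is the elementary
2-descent on the curve `y² = x(x² - 11x - 1)` of conductor 20.
-/

set_option autoImplicit false

namespace FLTAgent.SmallPrimes

theorem five_parity :
    ∀ u k w : ZMod 8, u ^ 4 - 11 * u ^ 2 * (2 * k + 1) ^ 2 - (2 * k + 1) ^ 4 ≠ w ^ 2 := by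
  decide

theorem five_norm : ∀ u v : ZMod 5, u ^ 2 - 22 * v ^ 2 = 0 → u = 0 ∧ v = 0 := by
  decide

theorem quartic_five_aux : ∀ (n : ℕ) (u v w : ℤ), v.natAbs = n → IsCoprime u v →
    u ^ 4 - 11 * u ^ 2 * v ^ 2 - v ^ 4 = w ^ 2 → v = 0 := by
  intro n
  induction n using Nat.strong_induction_on with
  | _ n ih =>
  intro u v w hn hco heq
  by_contra hv0
  -- `v` is even, `u` and `w` are odd
  obtain ⟨v₁, rfl⟩ : ∃ v₁, v = 2 * v₁ := by
    rcases Int.even_or_odd' v with ⟨k, hk | hk⟩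
    · exact ⟨k, hk⟩
    · exfalso
      have := congrArg (Int.cast : ℤ → ZMod 8) heq
      rw [hk] at this
      push_cast at this
      exact five_parity _ _ _ this
  have hv1 : v₁ ≠ 0 := by intro h; exact hv0 (by rw [h]; ring)
  have huo : Odd u := by
    by_contra h
    exact not_both_even hco (Int.not_odd_iff_even.mp h) (even_two_mul v₁)
  have hwo : Odd w := by
    have h2 : Odd (w ^ 2) := by
      rw [← heq]
      exact ((huo.pow).sub_even ⟨22 * u ^ 2 * v₁ ^ 2, by ring⟩).sub_even ⟨8 * v₁ ^ 4, by ring⟩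
    exact (Int.odd_pow.mp h2).resolve_right (by norm_num)
  have hcu : IsCoprime u v₁ := hco.of_mul_right_right
  set R : ℤ := u ^ 2 - 22 * v₁ ^ 2 with hR
  have hRo : Odd R := (huo.pow).sub_even ⟨11 * v₁ ^ 2, by ring⟩
  obtain ⟨X, hX⟩ : ∃ X, R - w = 2 * X := even_iff_two_dvd.mp (hRo.sub_odd hwo)
  have h5 : Prime (5 : ℤ) := Nat.prime_iff_prime_int.mp (by decide)
  obtain ⟨Y, hY⟩ : ∃ Y, Y = R - X := ⟨_, rfl⟩
  have hXY : X * Y = 5 ^ 3 * v₁ ^ 4 := by
    have : 4 * (X * Y) = 4 * (5 ^ 3 * v₁ ^ 4) := by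
      rw [hY, show 4 * (X * (R - X)) = (2 * X) * (2 * R - 2 * X) by ring, ← hX, hR]
      linear_combination heq
    linarith
  have hR5 : ¬ (5 : ℤ) ∣ R := by
    intro hd
    have hd' := (ZMod.intCast_zmod_eq_zero_iff_dvd R 5).mpr hd
    rw [hR] at hd'
    push_cast at hd'
    obtain ⟨h1, h2⟩ := five_norm _ _ hd'
    exact h5.not_isUnit (hcu.isUnit_of_dvd' ((ZMod.intCast_zmod_eq_zero_iff_dvd u 5).mp h1)
      ((ZMod.intCast_zmod_eq_zero_iff_dvd v₁ 5).mp h2))
  have hRv : IsCoprime R v₁ := by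
    have h := hcu.pow_left (m := 2) |>.add_mul_right_left (-22 * v₁)
    rwa [show u ^ 2 + -22 * v₁ * v₁ = R by rw [hR]; ring] at h
  have hcXY : IsCoprime X Y := by
    apply isCoprime_of_sum
    rw [hXY, hY, add_sub_cancel]
    exact ((h5.coprime_iff_not_dvd.mpr hR5).symm.pow_right).mul_right hRv.pow_right
  obtain ⟨s, r, hsr, hcsr, hsum, -⟩ := split_signed 3 h5 (by norm_num) hv1 hcXY hXY
  rw [hY, add_sub_cancel] at hsum
  -- the sign is positive
  have hu2 : u ^ 2 = r ^ 4 + 22 * r ^ 2 * s ^ 2 + 125 * s ^ 4 := by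
    rcases hsum with hs | hs
    · rw [hR, ← hsr] at hs; linear_combination hs
    · exfalso
      rw [hR, ← hsr] at hs
      have : 0 ≤ u ^ 2 := sq_nonneg u
      have hr0 : r ≠ 0 := by rintro rfl; exact hv1 (by rw [← hsr]; ring)
      have : 0 < r ^ 4 := (show Even 4 by decide).pow_pos hr0
      nlinarith [sq_nonneg (r ^ 2 - 11 * s ^ 2), sq_nonneg (s ^ 2)]
  have hs0 : s ≠ 0 := by rintro rfl; exact hv1 (by rw [← hsr]; ring)
  -- the second descent
  set M : ℤ := r ^ 2 + 11 * s ^ 2 with hM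
  have hMpos : 0 < M := by positivity
  have hu2' : u ^ 2 = M ^ 2 + 4 * s ^ 4 := by rw [hu2, hM]; ring
  have hMo : Odd M := by
    have h2 : Odd (M ^ 2) := by
      rw [show M ^ 2 = u ^ 2 - 4 * s ^ 4 by linarith]
      exact huo.pow.sub_even ⟨2 * s ^ 4, by ring⟩
    exact (Int.odd_pow.mp h2).resolve_right (by norm_num)
  obtain ⟨P, hP⟩ : ∃ P, u - M = 2 * P := even_iff_two_dvd.mp (huo.sub_odd hMo)
  obtain ⟨Q, hQ⟩ : ∃ Q, Q = u - P := ⟨_, rfl⟩
  have hPQ : P * Q = 2 ^ 0 * s ^ 4 := by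
    have : 4 * (P * Q) = 4 * (2 ^ 0 * s ^ 4) := by
      rw [hQ, show 4 * (P * (u - P)) = (2 * P) * (2 * u - 2 * P) by ring, ← hP]
      linear_combination hu2'
    linarith
  have hus : IsCoprime u s := by
    have h := (hcsr.symm.pow_left (m := 4)).add_mul_right_left (22 * r ^ 2 * s + 125 * s ^ 3)
    rw [show r ^ 4 + (22 * r ^ 2 * s + 125 * s ^ 3) * s = u ^ 2 by rw [hu2]; ring] at h
    exact (IsCoprime.pow_left_iff (by norm_num)).mp h
  have hcPQ : IsCoprime P Q := by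
    apply isCoprime_of_sum
    rw [hPQ, hQ, add_sub_cancel, pow_zero, one_mul]
    exact hus.pow_right
  obtain ⟨a, b, hab, hcab, -, hdiff⟩ := split_signed 0 Int.prime_two two_pos hs0 hcPQ hPQ
  rw [show Q - P = M by linarith, pow_zero, one_mul, hM] at hdiff
  have hlt : s.natAbs < n := by
    have h1 := natAbs_left_le_of_mul hv1 hsr
    have h2 : 0 < v₁.natAbs := Int.natAbs_pos.mpr hv1
    rw [Int.natAbs_mul] at hn
    simp at hn
    omega
  rcases hdiff with hd | hd
  · have hb := ih _ (lt_of_le_of_lt (natAbs_right_le_of_mul hs0 hab) hlt) a b r rfl hcab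
      (by rw [← hab] at hd; linear_combination -hd)
    exact hs0 (by rw [← hab, hb, mul_zero])
  · have ha := ih _ (lt_of_le_of_lt (natAbs_left_le_of_mul hs0 hab) hlt) b a r rfl hcab.symm
      (by rw [← hab] at hd; linear_combination -hd)
    exact hs0 (by rw [← hab, ha, zero_mul])

/-- The quartic `w² = u⁴ - 11u²v² - v⁴` has only the trivial primitive solutions. -/
theorem quartic_five {u v w : ℤ} (hco : IsCoprime u v)
    (heq : u ^ 4 - 11 * u ^ 2 * v ^ 2 - v ^ 4 = w ^ 2) : v = 0 :=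
  quartic_five_aux _ u v w rfl hco heq

end FLTAgent.SmallPrimes
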