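import Fermat.Agent.SmallPrimes.Arith
import Mathlib.Data.ZMod.Basic
import Mathlib.Tactic.LinearCombination
import Mathlib.Tactic.Linarith
import Mathlib.Tactic.Ring

/-!
# The quartic `w² = u⁴ - 11u²v² + 32v⁴`

The only primitive solutions with `v ≠ 0` have `(u², v²) = (4, 1)`.  This is the elementary
2-descent on the curve `y² = z(z² - 11z + 32)` of conductor 14.
-/

set_option autoImplicit false

namespace FLTAgent.SmallPrimes

theorem seven_parity : ∀ i j w : ZMod 8,
    (2 * i + 1) ^ 4 - 11 * (2 * i + 1) ^ 2 * (2 * j + 1) ^ 2 + 32 * (2 * j + 1) ^ 4 ≠ w ^ 2 := by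
  decide

theorem seven_sign_odd : ∀ i j k : ZMod 16,
    4 * (2 * k) ^ 2 ≠ 22 * (2 * i + 1) ^ 2 * (2 * j + 1) ^ 2 + 7 * (2 * j + 1) ^ 4 - (2 * i + 1) ^ 4 := by
  decide

theorem seven_sign_even : ∀ r s k : ZMod 4,
    (2 * k + 1) ^ 2 ≠ 22 * r ^ 2 * s ^ 2 + 7 * s ^ 4 - r ^ 4 := by
  decide

/-- The dual quartic `u² = r⁴ + 22r²s² - 7s⁴` sends `u` prime to `s`. -/
theorem seven_dual_coprime {r s : ℤ} (h : IsCoprime r s) : IsCoprime (r ^ 2 + 11 * s ^ 2) s := by
  have h' := h.pow_left (m := 2) |>.add_mul_right_left (11 * s)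
  rwa [show r ^ 2 + 11 * s * s = r ^ 2 + 11 * s ^ 2 by ring] at h'

theorem quartic_seven_aux : ∀ (n : ℕ) (u v w : ℤ), v.natAbs = n → IsCoprime u v → v ≠ 0 →
    u ^ 4 - 11 * u ^ 2 * v ^ 2 + 32 * v ^ 4 = w ^ 2 → u ^ 2 = 4 ∧ v ^ 2 = 1 := by
  intro n
  induction n using Nat.strong_induction_on with
  | _ n ih =>
  intro u v w hn hco hv0 heq
  have h7 : Prime (7 : ℤ) := Nat.prime_iff_prime_int.mp (by decide)
  have hwv : IsCoprime w v := by
    have h := (hco.pow_left (m := 4)).add_mul_right_left (-11 * u ^ 2 * v + 32 * v ^ 3)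
    rw [show u ^ 4 + (-11 * u ^ 2 * v + 32 * v ^ 3) * v = w ^ 2 by rw [← heq]; ring] at h
    exact (IsCoprime.pow_left_iff (by norm_num)).mp h
  -- `7` is prime to `w`
  have hw7 : ¬ (7 : ℤ) ∣ w := by
    intro hd
    have hR : (7 : ℤ) ∣ 2 * u ^ 2 - 11 * v ^ 2 := by
      refine h7.dvd_of_dvd_pow (n := 2) ?_
      rw [show (2 * u ^ 2 - 11 * v ^ 2) ^ 2 = 4 * w ^ 2 - 7 * v ^ 4 by rw [← heq]; ring]
      exact dvd_sub ((hd.pow two_ne_zero).mul_left 4) (dvd_mul_right _ _)
    obtain ⟨a, ha⟩ := hd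
    obtain ⟨b, hb⟩ := hR
    have hv4 : v ^ 4 = 7 * (4 * a ^ 2 - b ^ 2) := by
      have : 7 * v ^ 4 = 7 * (7 * (4 * a ^ 2 - b ^ 2)) := by
        rw [show (7 : ℤ) * (7 * (4 * a ^ 2 - b ^ 2)) = 4 * (7 * a) ^ 2 - (7 * b) ^ 2 by ring,
          ← ha, ← hb, ← heq]
        ring
      linarith
    exact h7.not_isUnit (hwv.isUnit_of_dvd' ⟨a, ha⟩ (h7.dvd_of_dvd_pow ⟨_, hv4⟩))
  have hw7' : IsCoprime w 7 := (h7.coprime_iff_not_dvd.mpr hw7).symm
  rcases Int.even_or_odd' v with ⟨v₁, hv | hv⟩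
  · -- `v` even, `u` odd: no solutions, by descent
    exfalso
    subst hv
    have hv1 : v₁ ≠ 0 := by intro h; exact hv0 (by rw [h]; ring)
    have huo : Odd u := by
      by_contra h
      exact not_both_even hco (Int.not_odd_iff_even.mp h) (even_two_mul v₁)
    have hwo : Odd w := by
      have h2 : Odd (w ^ 2) := by
        rw [← heq]
        exact ((huo.pow).sub_even ⟨22 * u ^ 2 * v₁ ^ 2, by ring⟩).add_even ⟨256 * v₁ ^ 4, by ring⟩
      exact (Int.odd_pow.mp h2).resolve_right (by norm_num)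
    set R : ℤ := u ^ 2 - 22 * v₁ ^ 2 with hR
    have hRo : Odd R := (huo.pow).sub_even ⟨11 * v₁ ^ 2, by ring⟩
    obtain ⟨X, hX⟩ : ∃ X, w - R = 2 * X := even_iff_two_dvd.mp (hwo.sub_odd hRo)
    obtain ⟨Y, hY⟩ : ∃ Y, Y = w - X := ⟨_, rfl⟩
    have hXY : X * Y = 7 ^ 1 * v₁ ^ 4 := by
      have : 4 * (X * Y) = 4 * (7 ^ 1 * v₁ ^ 4) := by
        rw [hY, show 4 * (X * (w - X)) = (2 * X) * (2 * w - 2 * X) by ring, ← hX, hR]
        linear_combination -heq
      linarith
    have hcXY : IsCoprime X Y := by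
      apply isCoprime_of_sum
      rw [hXY, hY, add_sub_cancel, pow_one]
      exact hw7'.mul_right hwv.of_mul_right_right.pow_right
    obtain ⟨s, r, hsr, hcsr, -, hdiff⟩ := split_signed 1 h7 (by norm_num) hv1 hcXY hXY
    rw [show Y - X = R by linarith, pow_one] at hdiff
    have hs0 : s ≠ 0 := by rintro rfl; exact hv1 (by rw [← hsr]; ring)
    have hu2 : u ^ 2 = r ^ 4 + 22 * r ^ 2 * s ^ 2 - 7 * s ^ 4 := by
      rcases hdiff with hs | hs
      · exfalso
        have h := congrArg (Int.cast : ℤ → ZMod 4) hs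
        obtain ⟨k, rfl⟩ := huo
        rw [hR, ← hsr] at h
        push_cast at h
        exact seven_sign_even r s k (by linear_combination h)
      · rw [hR, ← hsr] at hs; linear_combination hs
    set M : ℤ := r ^ 2 + 11 * s ^ 2 with hM
    have hMpos : 0 < M := by positivity
    have hu2' : u ^ 2 = M ^ 2 - 128 * s ^ 4 := by rw [hu2, hM]; ring
    have hMo : Odd M := by
      have h2 : Odd (M ^ 2) := by
        rw [show M ^ 2 = u ^ 2 + 128 * s ^ 4 by linarith]
        exact huo.pow.add_even ⟨64 * s ^ 4, by ring⟩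
      exact (Int.odd_pow.mp h2).resolve_right (by norm_num)
    obtain ⟨P, hP⟩ : ∃ P, M - u = 2 * P := even_iff_two_dvd.mp (hMo.sub_odd huo)
    obtain ⟨Q, hQ⟩ : ∃ Q, Q = M - P := ⟨_, rfl⟩
    have hPQ : P * Q = 2 ^ 5 * s ^ 4 := by
      have : 4 * (P * Q) = 4 * (2 ^ 5 * s ^ 4) := by
        rw [hQ, show 4 * (P * (M - P)) = (2 * P) * (2 * M - 2 * P) by ring, ← hP]
        linear_combination -hu2'
      linarith
    have hM2 : IsCoprime M 2 :=
      (Int.prime_two.coprime_iff_not_dvd.mpr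
        (fun h => Int.not_even_iff_odd.mpr hMo (even_iff_two_dvd.mpr h))).symm
    have hcPQ : IsCoprime P Q := by
      apply isCoprime_of_sum
      rw [hPQ, hQ, add_sub_cancel]
      exact hM2.pow_right.mul_right (seven_dual_coprime hcsr.symm).pow_right
    obtain ⟨a, b, hab, hcab, hsum, -⟩ := split_signed 5 Int.prime_two two_pos hs0 hcPQ hPQ
    rw [hQ, add_sub_cancel] at hsum
    have hMeq : M = 32 * a ^ 4 + b ^ 4 := by
      rcases hsum with h | h
      · linarith [h]
      · exfalso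
        have h1 : (0 : ℤ) ≤ a ^ 4 := (show Even 4 by decide).pow_nonneg a
        have h2 : (0 : ℤ) ≤ b ^ 4 := (show Even 4 by decide).pow_nonneg b
        linarith
    have ha0 : a ≠ 0 := by rintro rfl; exact hs0 (by rw [← hab]; ring)
    have hbo : Odd b := by
      have : Odd (b ^ 4) := by
        rw [show b ^ 4 = M - 32 * a ^ 4 by linarith]
        exact hMo.sub_even ⟨16 * a ^ 4, by ring⟩
      exact (Int.odd_pow.mp this).resolve_right (by norm_num)
    have hlt : a.natAbs < n := by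
      have h1 := natAbs_left_le_of_mul hv1 hsr
      have h2 := natAbs_left_le_of_mul hs0 hab
      have h3 : 0 < v₁.natAbs := Int.natAbs_pos.mpr hv1
      rw [Int.natAbs_mul] at hn
      simp at hn
      omega
    obtain ⟨hb2, -⟩ := ih _ hlt b a r rfl hcab.symm ha0
      (by rw [hM, ← hab] at hMeq; linear_combination -hMeq)
    obtain ⟨k, rfl⟩ := hbo
    have : (2 : ℤ) * (2 * k ^ 2 + 2 * k) + 1 = 2 * 2 := by linear_combination hb2
    omega
  · -- `v` odd, `u` even
    obtain ⟨u₀, rfl⟩ : ∃ u₀, u = 2 * u₀ := by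
      rcases Int.even_or_odd' u with ⟨k, hk | hk⟩
      · exact ⟨k, hk⟩
      · exfalso
        have := congrArg (Int.cast : ℤ → ZMod 8) heq
        rw [hk, hv] at this
        push_cast at this
        exact seven_parity _ _ _ this
    have hvo : Odd v := ⟨v₁, hv⟩
    set R : ℤ := 2 * (2 * u₀) ^ 2 - 11 * v ^ 2 with hR
    obtain ⟨X, hX⟩ : ∃ X, X = 2 * w - R := ⟨_, rfl⟩
    obtain ⟨Y, hY⟩ : ∃ Y, Y = 2 * w + R := ⟨_, rfl⟩
    have hXY : X * Y = 7 ^ 1 * v ^ 4 := by
      rw [hX, hY, hR]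
      linear_combination -4 * heq
    have hv2 : IsCoprime (4 : ℤ) v := by
      have h : IsCoprime (2 : ℤ) v := Int.prime_two.coprime_iff_not_dvd.mpr
        (fun h => Int.not_even_iff_odd.mpr hvo (even_iff_two_dvd.mpr h))
      simpa using h.pow_left (m := 2)
    have h47 : IsCoprime (4 : ℤ) 7 := ⟨2, -1, by norm_num⟩
    have hcXY : IsCoprime X Y := by
      apply isCoprime_of_sum
      rw [hXY, show X + Y = 4 * w by rw [hX, hY]; ring, pow_one]
      exact (h47.mul_left hw7').mul_right (hv2.mul_left hwv).pow_right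
    obtain ⟨s, r, hsr, hcsr, -, hdiff⟩ := split_signed 1 h7 (by norm_num) hv0 hcXY hXY
    rw [show Y - X = 2 * R by rw [hX, hY]; ring, pow_one] at hdiff
    have hso : Odd s := (Int.odd_mul.mp (hsr ▸ hvo)).1
    have hro : Odd r := (Int.odd_mul.mp (hsr ▸ hvo)).2
    have hs0 : s ≠ 0 := by rintro rfl; exact hv0 (by rw [← hsr]; ring)
    have hu2 : 16 * u₀ ^ 2 = r ^ 4 + 22 * r ^ 2 * s ^ 2 - 7 * s ^ 4 := by
      rcases hdiff with hs | hs
      · exfalso
        have h := congrArg (Int.cast : ℤ → ZMod 16) hs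
        obtain ⟨i, rfl⟩ := hro
        obtain ⟨j, rfl⟩ := hso
        rw [hR, ← hsr] at h
        push_cast at h
        exact seven_sign_odd i j u₀ (by linear_combination h)
      · rw [hR, ← hsr] at hs; linear_combination hs
    -- `r² + 11s² = 4M` with `M` odd
    obtain ⟨M, hM, hMo⟩ : ∃ M, r ^ 2 + 11 * s ^ 2 = 4 * M ∧ Odd M := by
      obtain ⟨i, rfl⟩ := hro
      obtain ⟨j, rfl⟩ := hso
      exact ⟨i * (i + 1) + 11 * (j * (j + 1)) + 3, by ring,
        ((Int.even_mul_succ_self i).add ((Int.even_mul_succ_self j).mul_left 11)).add_odd (by decide)⟩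
    have hMpos : 0 < M := by
      have : (0 : ℤ) < r ^ 2 + 11 * s ^ 2 := by positivity
      linarith
    have hu2' : u₀ ^ 2 = M ^ 2 - 8 * s ^ 4 := by
      have : 16 * u₀ ^ 2 = 16 * (M ^ 2 - 8 * s ^ 4) := by
        rw [hu2, show 16 * (M ^ 2 - 8 * s ^ 4) = (4 * M) ^ 2 - 128 * s ^ 4 by ring, ← hM]
        ring
      linarith
    have huo : Odd u₀ := by
      have h2 : Odd (u₀ ^ 2) := by
        rw [hu2']
        exact hMo.pow.sub_even ⟨4 * s ^ 4, by ring⟩
      exact (Int.odd_pow.mp h2).resolve_right (by norm_num)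
    obtain ⟨P, hP⟩ : ∃ P, M - u₀ = 2 * P := even_iff_two_dvd.mp (hMo.sub_odd huo)
    obtain ⟨Q, hQ⟩ : ∃ Q, Q = M - P := ⟨_, rfl⟩
    have hPQ : P * Q = 2 ^ 1 * s ^ 4 := by
      have : 4 * (P * Q) = 4 * (2 ^ 1 * s ^ 4) := by
        rw [hQ, show 4 * (P * (M - P)) = (2 * P) * (2 * M - 2 * P) by ring, ← hP]
        linear_combination -hu2'
      linarith
    have hM2 : IsCoprime M 2 :=
      (Int.prime_two.coprime_iff_not_dvd.mpr
        (fun h => Int.not_even_iff_odd.mpr hMo (even_iff_two_dvd.mpr h))).symm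
    have hMs : IsCoprime M s := by
      have h := seven_dual_coprime hcsr.symm
      rw [hM] at h
      exact h.of_mul_left_right
    have hcPQ : IsCoprime P Q := by
      apply isCoprime_of_sum
      rw [hPQ, hQ, add_sub_cancel]
      exact hM2.pow_right.mul_right hMs.pow_right
    obtain ⟨a, b, hab, hcab, hsum, -⟩ := split_signed 1 Int.prime_two two_pos hs0 hcPQ hPQ
    rw [hQ, add_sub_cancel, pow_one] at hsum
    have hMeq : M = 2 * a ^ 4 + b ^ 4 := by
      rcases hsum with h | h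
      · exact h
      · exfalso
        have h1 : (0 : ℤ) ≤ a ^ 4 := (show Even 4 by decide).pow_nonneg a
        have h2 : (0 : ℤ) ≤ b ^ 4 := (show Even 4 by decide).pow_nonneg b
        linarith
    have hao : Odd a := (Int.odd_mul.mp (hab ▸ hso)).1
    have ha0 : a ≠ 0 := by rintro rfl; exact hs0 (by rw [← hab]; ring)
    have hb0 : b ≠ 0 := by rintro rfl; exact hs0 (by rw [← hab]; ring)
    have heq' : r ^ 2 = 8 * a ^ 4 - 11 * a ^ 2 * b ^ 2 + 4 * b ^ 4 := by
      rw [hMeq, ← hab] at hM; linear_combination hM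
    -- either the descent is strict, or we are at the known solution
    have key : a ^ 2 = 1 ∧ b ^ 2 = 1 := by
      by_cases hlt : a.natAbs < n
      · have hco' : IsCoprime (2 * b) a := by
          refine IsCoprime.mul_left ?_ hcab.symm
          exact Int.prime_two.coprime_iff_not_dvd.mpr
            (fun h => Int.not_even_iff_odd.mpr hao (even_iff_two_dvd.mpr h))
        obtain ⟨h1, h2⟩ := ih _ hlt (2 * b) a (2 * r) rfl hco' ha0
          (by linear_combination -4 * heq')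
        exact ⟨h2, by linarith [show (2 * b) ^ 2 = 4 * b ^ 2 by ring]⟩
      · -- then `|r| = |b| = 1`
        have hn' : n = r.natAbs * (a.natAbs * b.natAbs) := by
          rw [← hn, ← hsr, ← hab]
          simp [Int.natAbs_mul]
          ring
        have hr1 : 0 < r.natAbs := Int.natAbs_pos.mpr (by rintro rfl; exact hv0 (by rw [← hsr]; ring))
        have hb1 : 0 < b.natAbs := Int.natAbs_pos.mpr hb0
        have ha1 : 0 < a.natAbs := Int.natAbs_pos.mpr ha0
        have hrb : r.natAbs * b.natAbs = 1 := by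
          have h1 : a.natAbs * (r.natAbs * b.natAbs) ≤ a.natAbs * 1 := by
            rw [mul_one]
            calc a.natAbs * (r.natAbs * b.natAbs) = n := by rw [hn']; ring
              _ ≤ a.natAbs := not_lt.mp hlt
          have h2 : 0 < r.natAbs * b.natAbs := Nat.mul_pos hr1 hb1
          have h3 := Nat.le_of_mul_le_mul_left h1 ha1
          omega
        obtain ⟨hr', hb'⟩ := mul_eq_one.mp hrb
        have hr2 : r ^ 2 = 1 := by rw [← Int.natAbs_sq, hr']; norm_num
        have hb2 : b ^ 2 = 1 := by rw [← Int.natAbs_sq, hb']; norm_num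
        refine ⟨?_, hb2⟩
        have h : (a ^ 2 - 1) * (8 * a ^ 2 - 3) = 0 := by
          rw [hr2, show b ^ 4 = (b ^ 2) ^ 2 by ring, hb2] at heq'
          linear_combination -heq'
        rcases mul_eq_zero.mp h with h | h <;> omega
    obtain ⟨ha2, hb2⟩ := key
    have hs2 : s ^ 2 = 1 := by rw [← hab, mul_pow, ha2, hb2]; norm_num
    have hr2 : r ^ 2 = 1 := by
      rw [show a ^ 4 = (a ^ 2) ^ 2 by ring, show b ^ 4 = (b ^ 2) ^ 2 by ring, ha2, hb2] at heq'
      linarith
    rw [show r ^ 4 = (r ^ 2) ^ 2 by ring, show s ^ 4 = (s ^ 2) ^ 2 by ring, hr2, hs2] at hu2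
    exact ⟨by linarith [show (2 * u₀) ^ 2 = 4 * u₀ ^ 2 by ring],
      by rw [← hsr, mul_pow, hs2, hr2]; norm_num⟩

/-- The quartic `w² = u⁴ - 11u²v² + 32v⁴` has only the primitive solutions `(±2, ±1)`. -/
theorem quartic_seven {u v w : ℤ} (hco : IsCoprime u v) (hv : v ≠ 0)
    (heq : u ^ 4 - 11 * u ^ 2 * v ^ 2 + 32 * v ^ 4 = w ^ 2) : u ^ 2 = 4 ∧ v ^ 2 = 1 :=
  quartic_seven_aux _ u v w rfl hco hv heq

end FLTAgent.SmallPrimes
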