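import Fermat.Agent.SmallPrimes.DescentFive
import Fermat.Agent.SmallPrimes.DescentSeven
import Mathlib.Data.Rat.Lemmas
import Mathlib.Data.Nat.Factorization.Basic
import Mathlib.Tactic.FieldSimp

/-!
# Rational points on `y² = z(z² - 11z - 1)` and `y² = z(z² - 11z + 32)`
-/

set_option autoImplicit false

namespace FLTAgent.SmallPrimes

/-- Clearing denominators in `y² = z(z² + Az + B)`: the denominator of `z` is a square. -/
theorem exists_integral_point {A B : ℤ} {z y : ℚ} (h : y ^ 2 = z * (z ^ 2 + A * z + B)) :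
    ∃ U V W : ℤ, V ≠ 0 ∧ IsCoprime U V ∧ z = (U : ℚ) / (V : ℚ) ^ 2 ∧
      U * (U ^ 2 + A * U * V ^ 2 + B * V ^ 4) = W ^ 2 := by
  set D : ℤ := (z.den : ℤ) with hDdef
  set T : ℤ := z.num * (z.num ^ 2 + A * z.num * D + B * D ^ 2) with hT
  have hD : (0 : ℤ) < D := by rw [hDdef]; exact_mod_cast z.den_pos
  have hDq : (D : ℚ) ≠ 0 := by exact_mod_cast hD.ne'
  have hz : z = (z.num : ℚ) / (D : ℚ) := by
    rw [hDdef, Int.cast_natCast]; exact (Rat.num_div_den z).symm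
  have hcop : IsCoprime z.num D := Rat.isCoprime_num_den z
  have hsq : IsSquare ((T * D : ℤ) : ℚ) := by
    refine ⟨y * (D : ℚ) ^ 2, ?_⟩
    rw [show y * (D : ℚ) ^ 2 * (y * (D : ℚ) ^ 2) = y ^ 2 * (D : ℚ) ^ 4 by ring, h, hz, hT]
    push_cast
    field_simp
  obtain ⟨S, hS⟩ := Rat.isSquare_intCast_iff.mp hsq
  have hTD : IsCoprime D T := by
    rw [hT]
    refine hcop.symm.mul_right ?_
    have h1 := (hcop.symm.pow_right (n := 2)).add_mul_left_right (A * z.num + B * D)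
    rwa [show z.num ^ 2 + D * (A * z.num + B * D) =
      z.num ^ 2 + A * z.num * D + B * D ^ 2 by ring] at h1
  obtain ⟨V, hV⟩ : ∃ V, D = V ^ 2 := by
    obtain ⟨V, hV | hV⟩ := Int.sq_of_isCoprime hTD (c := S) (by rw [mul_comm, hS, sq])
    · exact ⟨V, hV⟩
    · exfalso; linarith [sq_nonneg V]
  have hV0 : V ≠ 0 := by rintro rfl; simp at hV; omega
  obtain ⟨W, hW⟩ : IsSquare T := by
    rw [← Rat.isSquare_intCast_iff]
    refine ⟨(S : ℚ) / (V : ℚ), ?_⟩
    have hVq : (V : ℚ) ≠ 0 := by exact_mod_cast hV0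
    have hS' : (T : ℚ) * (V : ℚ) ^ 2 = (S : ℚ) * S := by
      rw [hV] at hS; exact_mod_cast hS
    field_simp
    linear_combination hS'
  refine ⟨z.num, V, W, hV0, ?_, ?_, ?_⟩
  · rw [hV] at hcop; exact (IsCoprime.pow_right_iff (by norm_num)).mp hcop
  · rw [hV] at hz; exact_mod_cast hz
  · rw [hT, hV] at hW; linear_combination hW

theorem quartic_five_rat {r y : ℚ} : r ^ 4 - 11 * r ^ 2 - 1 ≠ y ^ 2 := by
  intro h
  have hden : (r.den : ℤ) ≠ 0 := by exact_mod_cast r.den_pos.ne'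
  have hco : IsCoprime r.num (r.den : ℤ) := Rat.isCoprime_num_den r
  set D : ℤ := (r.den : ℤ) with hDdef
  obtain ⟨W, hW⟩ : IsSquare (r.num ^ 4 - 11 * r.num ^ 2 * D ^ 2 - D ^ 4) := by
    rw [← Rat.isSquare_intCast_iff]
    refine ⟨y * (D : ℚ) ^ 2, ?_⟩
    have hDq : (D : ℚ) ≠ 0 := by exact_mod_cast hden
    have hr : r = (r.num : ℚ) / (D : ℚ) := by
      rw [hDdef, Int.cast_natCast]; exact (Rat.num_div_den r).symm
    generalize r.num = N at hr ⊢
    rw [show y * (D : ℚ) ^ 2 * (y * (D : ℚ) ^ 2) = y ^ 2 * (D : ℚ) ^ 4 by ring, ← h, hr]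
    push_cast
    field_simp
  exact hden (quartic_five (w := W) hco (by rw [hW, sq]))

theorem quartic_seven_rat {r y : ℚ} (h : r ^ 4 - 11 * r ^ 2 + 32 = y ^ 2) : r ^ 2 = 4 := by
  have hden : (r.den : ℤ) ≠ 0 := by exact_mod_cast r.den_pos.ne'
  have hco : IsCoprime r.num (r.den : ℤ) := Rat.isCoprime_num_den r
  set D : ℤ := (r.den : ℤ) with hDdef
  have hDq : (D : ℚ) ≠ 0 := by exact_mod_cast hden
  have hr : r = (r.num : ℚ) / (D : ℚ) := by
    rw [hDdef, Int.cast_natCast]; exact (Rat.num_div_den r).symm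
  obtain ⟨W, hW⟩ : IsSquare (r.num ^ 4 - 11 * r.num ^ 2 * D ^ 2 + 32 * D ^ 4) := by
    rw [← Rat.isSquare_intCast_iff]
    refine ⟨y * (D : ℚ) ^ 2, ?_⟩
    generalize r.num = N at hr ⊢
    rw [show y * (D : ℚ) ^ 2 * (y * (D : ℚ) ^ 2) = y ^ 2 * (D : ℚ) ^ 4 by ring, ← h, hr]
    push_cast
    field_simp
  obtain ⟨h1, h2⟩ := quartic_seven (w := W) hco hden (by rw [hW, sq])
  rw [hr, div_pow, show ((r.num : ℚ)) ^ 2 = 4 by exact_mod_cast h1,
    show ((D : ℚ)) ^ 2 = 1 by rw [← Int.cast_pow, h2, Int.cast_one], div_one]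

/-- The rational points of `y² = z(z² - 11z - 1)` have `z = 0`. -/
theorem curve_five {z y : ℚ} (h : y ^ 2 = z * (z ^ 2 - 11 * z - 1)) : z = 0 := by
  obtain ⟨U, V, W, hV, hco, hz, hW⟩ := exists_integral_point (A := -11) (B := -1) (z := z) (y := y)
    (by rw [h]; push_cast; ring)
  have hcU : IsCoprime U (U ^ 2 + -11 * U * V ^ 2 + -1 * V ^ 4) := by
    have h1 := ((hco.pow_right (n := 4)).neg_right).add_mul_left_right (U + -11 * V ^ 2)
    rwa [show -V ^ 4 + U * (U + -11 * V ^ 2) = U ^ 2 + -11 * U * V ^ 2 + -1 * V ^ 4 by ring] at h1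
  by_contra hz0
  obtain ⟨u, hu⟩ := Int.sq_of_isCoprime hcU hW
  set r : ℚ := (u : ℚ) / (V : ℚ) with hr
  rcases hu with hu | hu
  · have hzr : z = r ^ 2 := by rw [hz, hu, hr, div_pow]; push_cast; ring
    have hr0 : r ≠ 0 := by rintro h0; exact hz0 (by rw [hzr, h0]; ring)
    refine quartic_five_rat (r := r) (y := y / r) ?_
    rw [div_pow y r, h, hzr]
    field_simp
  · have hzr : z = -r ^ 2 := by rw [hz, hu, hr, div_pow]; push_cast; ring
    have hr0 : r ≠ 0 := by rintro h0; exact hz0 (by rw [hzr, h0]; ring)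
    refine quartic_five_rat (r := 1 / r) (y := y / r ^ 3) ?_
    rw [div_pow y, h, hzr]
    field_simp
    ring

/-- The rational points of `y² = z(z² - 11z + 32)` have `z ∈ {0, 4, 8}`. -/
theorem curve_seven {z y : ℚ} (h : y ^ 2 = z * (z ^ 2 - 11 * z + 32)) :
    z = 0 ∨ z = 4 ∨ z = 8 := by
  by_cases hz0 : z = 0
  · exact Or.inl hz0
  obtain ⟨U, V, W, hV, hco, hz, hW⟩ := exists_integral_point (A := -11) (B := 32) (z := z) (y := y)
    (by rw [h]; push_cast; ring)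
  have hVq : (V : ℚ) ≠ 0 := by exact_mod_cast hV
  -- `z` is positive
  have hUpos : 0 < U := by
    by_contra hle
    have hneg : U < 0 := by
      rcases (not_lt.mp hle).lt_or_eq with h' | h'
      · exact h'
      · exact absurd (by rw [hz, h']; simp) hz0
    have hV4 : (0 : ℤ) < V ^ 4 := (show Even 4 by decide).pow_pos hV
    have : 0 < U ^ 2 + -11 * U * V ^ 2 + 32 * V ^ 4 := by nlinarith [sq_nonneg (2 * U - 11 * V ^ 2)]
    nlinarith [sq_nonneg W]
  obtain ⟨k, o, ho, hUo⟩ := Nat.exists_eq_two_pow_mul_odd (n := U.natAbs)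
    (Int.natAbs_ne_zero.mpr hUpos.ne')
  have hUeq : U = 2 ^ k * (o : ℤ) := by
    rw [← Int.natAbs_of_nonneg hUpos.le, hUo]; push_cast; ring
  have hoZ : Odd (o : ℤ) := by exact_mod_cast ho
  have ho2 : IsCoprime (o : ℤ) 2 := (Int.prime_two.coprime_iff_not_dvd.mpr
        (fun h => Int.not_even_iff_odd.mpr hoZ (even_iff_two_dvd.mpr h))).symm
  have hoV : IsCoprime (o : ℤ) V := by rw [hUeq] at hco; exact hco.of_mul_left_right
  have hcop : IsCoprime (o : ℤ) (2 ^ k * (U ^ 2 + -11 * U * V ^ 2 + 32 * V ^ 4)) := by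
    refine ho2.pow_right.mul_right ?_
    have h1 := ((ho2.pow_right (n := 5)).mul_right (hoV.pow_right (n := 4))).add_mul_left_right
      (2 ^ k * (U + -11 * V ^ 2))
    rwa [show 2 ^ 5 * V ^ 4 + (o : ℤ) * (2 ^ k * (U + -11 * V ^ 2)) =
      U ^ 2 + -11 * U * V ^ 2 + 32 * V ^ 4 by rw [hUeq]; ring] at h1
  obtain ⟨o₀, ho₀ | ho₀⟩ := Int.sq_of_isCoprime hcop (c := W) (by
    rw [← hW, ← mul_assoc, mul_comm (o : ℤ), ← hUeq])
  swap
  · exfalso
    have : (o : ℤ) ≤ 0 := by rw [ho₀]; linarith [sq_nonneg o₀]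
    have : (0 : ℤ) < o := by have := ho.pos; exact_mod_cast this
    linarith
  rcases Nat.even_or_odd' k with ⟨j, rfl | rfl⟩
  · -- `z` is a square
    set r : ℚ := (2 : ℚ) ^ j * (o₀ : ℚ) / (V : ℚ) with hr
    have hzr : z = r ^ 2 := by
      rw [hz, hUeq, ho₀, hr, div_pow]; push_cast; ring
    have hr0 : r ≠ 0 := by rintro h0; exact hz0 (by rw [hzr, h0]; ring)
    have := quartic_seven_rat (r := r) (y := y / r) (by rw [div_pow y r, h, hzr]; field_simp)
    exact Or.inr (Or.inl (by rw [hzr, this]))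
  · -- `32/z` is a square
    have hU2 : U = 2 * (2 ^ j * o₀) ^ 2 := by rw [hUeq, ho₀]; ring
    set u : ℤ := 2 ^ j * o₀ with hu
    have hu0 : (u : ℚ) ≠ 0 := by
      intro h0
      exact hz0 (by rw [hz, hU2, show u = 0 by exact_mod_cast h0]; simp)
    set r : ℚ := 4 * (V : ℚ) / (u : ℚ) with hr
    have hr0 : r ≠ 0 := by rw [hr]; exact div_ne_zero (mul_ne_zero (by norm_num) hVq) hu0
    have hzr : z = 32 / r ^ 2 := by
      rw [hz, hU2, hr]; push_cast; field_simp; ring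
    have := quartic_seven_rat (r := r) (y := y * r ^ 3 / 32)
      (by rw [div_pow (y * r ^ 3), mul_pow y, h, hzr]; field_simp; ring)
    exact Or.inr (Or.inr (by rw [hzr, this]; norm_num))

end FLTAgent.SmallPrimes
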