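import Fermat.Agent.SmallPrimes.TateForm
import Fermat.Agent.SmallPrimes.RationalPoints

/-!
# No rational points of order `14`, no `ℤ/2 × ℤ/10` in rational torsion

* a Weierstrass curve over `ℚ` has no pair of points of order 7 and of order 2;
* it has no point of order 5 together with two distinct points of order 2.
-/

set_option autoImplicit false

namespace FLTAgent.SmallPrimes

open WeierstrassCurve WeierstrassCurve.Affine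

/-- Elliptic curve core of "no point of order 14". -/
theorem core_seven {d z : ℚ} (hd0 : d ≠ 0) (hd1 : d ≠ 1)
    (h : ((1 - (d ^ 2 - d)) * z - 1) ^ 2 + 4 * (d ^ 2 * (d - 1)) * z ^ 2 * (z - 1) = 0) :
    False := by
  have hd1' : 1 - d ≠ 0 := sub_ne_zero.mpr (Ne.symm hd1)
  have hz0 : z ≠ 0 := by rintro rfl; norm_num at h
  have hz1 : z ≠ 1 := by
    rintro rfl
    have : (d * (1 - d)) ^ 2 = 0 := by linear_combination h
    exact mul_ne_zero hd0 hd1' (sq_eq_zero_iff.mp this)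
  obtain ⟨k, hk⟩ : ∃ k : ℚ, k = ((1 - (d ^ 2 - d)) * z - 1) / (2 * d * z * (1 - d)) := ⟨_, rfl⟩
  have hden : 2 * d * z * (1 - d) ≠ 0 :=
    mul_ne_zero (mul_ne_zero (mul_ne_zero two_ne_zero hd0) hz0) hd1'
  have hk' : k * (2 * d * z * (1 - d)) = (1 - (d ^ 2 - d)) * z - 1 := by
    rw [hk, div_mul_cancel₀ _ hden]
  have hsq : (1 - d) * k ^ 2 = z - 1 := by
    refine mul_right_cancel₀ (mul_ne_zero (mul_ne_zero (pow_ne_zero 2 hd0) (pow_ne_zero 2 hz0)) hd1') ?_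
    linear_combination
      ((k * (2 * d * z * (1 - d)) + ((1 - (d ^ 2 - d)) * z - 1)) / 4) * hk' + (1 / 4 : ℚ) * h
  have hk0 : k ≠ 0 := by
    rintro rfl
    exact hz1 (by linear_combination -hsq)
  have hG : d ^ 2 * k ^ 2 * (2 * k - 1) - d * (k ^ 2 + 1) * (2 * k - 1) + k ^ 2 = 0 := by
    refine mul_left_cancel₀ hd1' ?_
    linear_combination -hk' + ((1 - (d ^ 2 - d)) - 2 * d * k * (1 - d)) * hsq
  have hk1 : k - 1 ≠ 0 := by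
    intro hk1
    rw [sub_eq_zero.mp hk1] at hG
    exact hd1' (sq_eq_zero_iff.mp (show (1 - d) ^ 2 = 0 by linear_combination hG))
  obtain ⟨S, hS⟩ : ∃ S : ℚ, S = 2 * k ^ 2 * (2 * k - 1) * d - (2 * k - 1) * (k ^ 2 + 1) := ⟨_, rfl⟩
  have hS2 : S ^ 2 = (2 * k - 1) * (k - 1) ^ 3 * (2 * k ^ 2 + k + 1) := by
    rw [hS]; linear_combination (4 * k ^ 2 * (2 * k - 1)) * hG
  rcases curve_seven (z := 4 * (2 * k - 1) / (k - 1)) (y := 4 * S / (k - 1) ^ 3)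
    (by rw [div_pow, mul_pow, hS2]; field_simp; ring) with hz | hz | hz
  all_goals rw [div_eq_iff hk1] at hz
  · rw [show 2 * k - 1 = 0 by linarith] at hG
    exact hk0 (sq_eq_zero_iff.mp (by linear_combination hG))
  · exact hk0 (by linarith)
  · linarith

theorem cubic_vieta {B C D r₁ r₂ r₃ : ℚ} (h12 : r₁ ≠ r₂) (h13 : r₁ ≠ r₃) (h23 : r₂ ≠ r₃)
    (e1 : 4 * r₁ ^ 3 + B * r₁ ^ 2 + C * r₁ + D = 0)
    (e2 : 4 * r₂ ^ 3 + B * r₂ ^ 2 + C * r₂ + D = 0)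
    (e3 : 4 * r₃ ^ 3 + B * r₃ ^ 2 + C * r₃ + D = 0) :
    r₁ + r₂ + r₃ = -B / 4 ∧ r₁ * r₂ + r₁ * r₃ + r₂ * r₃ = C / 4 ∧ r₁ * r₂ * r₃ = -D / 4 := by
  have q12 : 4 * (r₁ ^ 2 + r₁ * r₂ + r₂ ^ 2) + B * (r₁ + r₂) + C = 0 :=
    mul_left_cancel₀ (sub_ne_zero.mpr h12) (by linear_combination e1 - e2)
  have q13 : 4 * (r₁ ^ 2 + r₁ * r₃ + r₃ ^ 2) + B * (r₁ + r₃) + C = 0 :=
    mul_left_cancel₀ (sub_ne_zero.mpr h13) (by linear_combination e1 - e3)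
  have hB : 4 * (r₁ + r₂ + r₃) + B = 0 :=
    mul_left_cancel₀ (sub_ne_zero.mpr h23) (by linear_combination q12 - q13)
  refine ⟨by linarith, ?_, ?_⟩
  · linear_combination (-1 / 4 : ℚ) * q12 + ((r₁ + r₂) / 4) * hB
  · linear_combination (1 / 4 : ℚ) * e1 - (r₁ / 4) * q12 + (r₁ * r₂ / 4) * hB

/-- Elliptic curve core of "no `ℤ/2 × ℤ/10`". -/
theorem core_five {b r₁ r₂ r₃ : ℚ} (hb : b ≠ 0) (h12 : r₁ ≠ r₂) (h13 : r₁ ≠ r₃) (h23 : r₂ ≠ r₃)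
    (e1 : ((1 - b) * r₁ - b) ^ 2 + 4 * r₁ ^ 3 - 4 * b * r₁ ^ 2 = 0)
    (e2 : ((1 - b) * r₂ - b) ^ 2 + 4 * r₂ ^ 3 - 4 * b * r₂ ^ 2 = 0)
    (e3 : ((1 - b) * r₃ - b) ^ 2 + 4 * r₃ ^ 3 - 4 * b * r₃ ^ 2 = 0) : False := by
  obtain ⟨hs1, hs2, hs3⟩ := cubic_vieta (B := (1 - b) ^ 2 - 4 * b) (C := -2 * b * (1 - b))
    (D := b ^ 2) h12 h13 h23 (by linear_combination e1) (by linear_combination e2)
    (by linear_combination e3)
  have hdisc : (4 * ((r₁ - r₂) * (r₁ - r₃) * (r₂ - r₃))) ^ 2 = b ^ 5 * (b ^ 2 - 11 * b - 1) := by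
    rw [show (4 * ((r₁ - r₂) * (r₁ - r₃) * (r₂ - r₃))) ^ 2 =
      16 * ((r₁ + r₂ + r₃) ^ 2 * (r₁ * r₂ + r₁ * r₃ + r₂ * r₃) ^ 2
        - 4 * (r₁ * r₂ + r₁ * r₃ + r₂ * r₃) ^ 3 - 4 * (r₁ + r₂ + r₃) ^ 3 * (r₁ * r₂ * r₃)
        + 18 * (r₁ + r₂ + r₃) * (r₁ * r₂ + r₁ * r₃ + r₂ * r₃) * (r₁ * r₂ * r₃)
        - 27 * (r₁ * r₂ * r₃) ^ 2) by ring, hs1, hs2, hs3]
    ring
  refine hb (curve_five (y := 4 * ((r₁ - r₂) * (r₁ - r₃) * (r₂ - r₃)) / b ^ 2) ?_)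
  rw [div_pow, hdisc]
  field_simp

/-- No rational point of order 14. -/
theorem no_order_seven_and_two {W : Affine ℚ} {R T : W.Point} (hR : addOrderOf R = 7)
    (hT0 : T ≠ 0) (hT : T + T = 0) : False := by
  obtain ⟨D⟩ := nonempty_tateData (R := R) (by omega)
  obtain ⟨hc, hrel⟩ := D.seven (hR ▸ addOrderOf_nsmul_eq_zero R)
  rcases T with _ | ⟨e, f, hn⟩
  · exact hT0 rfl
  have h2 := D.two e f hn hT
  obtain ⟨d, hd⟩ : ∃ d, d = D.b / D.c := ⟨_, rfl⟩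
  rw [← hd] at hrel
  have hbd : D.b = d * D.c := by rw [hd, div_mul_cancel₀ _ hc]
  have hcd : D.c = d ^ 2 - d := by linear_combination -hrel + hbd
  have hd0 : d ≠ 0 := by
    rw [hd]; exact div_ne_zero D.b_ne hc
  have hd1 : d ≠ 1 := by
    rintro rfl
    exact hc (by rw [hcd]; ring)
  obtain ⟨z, hz⟩ : ∃ z, z = (e - D.x₀) / D.u ^ 2 / D.b := ⟨_, rfl⟩
  have hx : (e - D.x₀) / D.u ^ 2 = D.b * z := by rw [hz, mul_div_cancel₀ _ D.b_ne]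
  rw [hx] at h2
  refine core_seven (z := z) hd0 hd1 ?_
  refine mul_left_cancel₀ (pow_ne_zero 2 D.b_ne) ?_
  rw [mul_zero, ← h2, show d ^ 2 * (d - 1) = D.b by rw [hbd, hcd]; ring, hcd]
  ring

/-- No `ℤ/2 × ℤ/10` in the rational points. -/
theorem no_order_five_and_two_two {W : Affine ℚ} {R S T : W.Point} (hR : addOrderOf R = 5)
    (hS0 : S ≠ 0) (hT0 : T ≠ 0) (hST : S ≠ T) (hS : S + S = 0) (hT : T + T = 0) : False := by
  obtain ⟨D⟩ := nonempty_tateData (R := R) (by omega)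
  have hcb := D.five (hR ▸ addOrderOf_nsmul_eq_zero R)
  have hsum : S + T + (S + T) = 0 := by rw [add_add_add_comm, hS, hT, add_zero]
  have hST0 : S + T ≠ 0 := fun h =>
    hST ((eq_neg_of_add_eq_zero_left h).trans (eq_neg_of_add_eq_zero_left hT).symm)
  have hS' : S + T ≠ S := fun h => hT0 (add_eq_left.mp h)
  have hT' : S + T ≠ T := fun h => hS0 (add_eq_right.mp h)
  -- distinct points of order two have distinct abscissae
  have key : ∀ {A B : W.Point}, A + A = 0 → B + B = 0 → A ≠ B → A + B ≠ 0 := by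
    intro A B _ hB hne h
    exact hne ((eq_neg_of_add_eq_zero_left h).trans (eq_neg_of_add_eq_zero_left hB).symm)
  obtain ⟨U, hU⟩ : ∃ U, U = S + T := ⟨_, rfl⟩
  rw [← hU] at hsum hST0 hS' hT'
  rcases S with _ | ⟨e₁, f₁, h₁⟩
  · exact hS0 rfl
  rcases T with _ | ⟨e₂, f₂, h₂⟩
  · exact hT0 rfl
  rcases U with _ | ⟨e₃, f₃, h₃⟩
  · exact hST0 rfl
  have x12 : e₁ ≠ e₂ := x_ne_of_point_ne (h₁ := h₁) (h₂ := h₂) hST (key hS hT hST)
  have x13 : e₁ ≠ e₃ := x_ne_of_point_ne (h₁ := h₁) (h₂ := h₃) hS'.symm (key hS hsum hS'.symm)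
  have x23 : e₂ ≠ e₃ := x_ne_of_point_ne (h₁ := h₂) (h₂ := h₃) hT'.symm (key hT hsum hT'.symm)
  have hinj : ∀ {x y : ℚ}, x ≠ y → (x - D.x₀) / D.u ^ 2 ≠ (y - D.x₀) / D.u ^ 2 := by
    intro x y hxy h
    rw [div_left_inj' (pow_ne_zero 2 D.u_ne)] at h
    exact hxy (sub_left_inj.mp h)
  have g₁ := D.two e₁ f₁ h₁ hS
  have g₂ := D.two e₂ f₂ h₂ hT
  have g₃ := D.two e₃ f₃ h₃ hsum
  rw [hcb] at g₁ g₂ g₃
  exact core_five D.b_ne (hinj x12) (hinj x13) (hinj x23) g₁ g₂ g₃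

end FLTAgent.SmallPrimes
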