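import Mathlib.AlgebraicGeometry.EllipticCurve.Affine.Point
import Mathlib.GroupTheory.OrderOfElement
import Mathlib.Tactic.LinearCombination
import Mathlib.Tactic.FieldSimp

/-!
# Points of order five and seven: the Tate normal form, in coordinates

If `R` is a point of order `≥ 4` there are `u ≠ 0`, `b`, `c` such that, after a translation and
a scaling, the curve is `y² + (1-c)xy - by = x³ - bx²` and `R = (0,0)`.
We do not change coordinates; we only record the relations satisfied by `b` and `c`.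
-/

set_option autoImplicit false

namespace FLTAgent.SmallPrimes

open WeierstrassCurve WeierstrassCurve.Affine

variable {F : Type*} [Field F] [DecidableEq F]

/-- The data attached to a point of order `≥ 4`. -/
structure TateData (W : Affine F) (R : W.Point) where
  /-- the abscissa of `R` -/
  x₀ : F
  /-- the scaling -/
  u : F
  /-- first Tate parameter -/
  b : F
  /-- second Tate parameter -/
  c : F
  u_ne : u ≠ 0
  b_ne : b ≠ 0
  five : 5 • R = 0 → c = b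
  seven : 7 • R = 0 → c ≠ 0 ∧ (b / c - 1) ^ 2 + (1 - c) * (b / c - 1) + b - 2 * c = 0
  two : ∀ (e f : F) (h : W.Nonsingular e f), Point.some e f h + Point.some e f h = 0 →
    ((1 - c) * ((e - x₀) / u ^ 2) - b) ^ 2 + 4 * ((e - x₀) / u ^ 2) ^ 3
      - 4 * b * ((e - x₀) / u ^ 2) ^ 2 = 0

theorem x_ne_of_point_ne {W : Affine F} {x₁ y₁ x₂ y₂ : F} {h₁ : W.Nonsingular x₁ y₁}
    {h₂ : W.Nonsingular x₂ y₂} (hne : Point.some x₁ y₁ h₁ ≠ Point.some x₂ y₂ h₂)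
    (hneg : Point.some x₁ y₁ h₁ + Point.some x₂ y₂ h₂ ≠ 0) : x₁ ≠ x₂ := by
  intro hx
  rcases Point.X_eq_iff.mp hx with h | h
  · exact hne h
  · exact hneg (by rw [h, neg_add_cancel])

theorem nsmul_ne_zero_of_lt {G : Type*} [AddMonoid G] {R : G} {n m : ℕ} (h : addOrderOf R = n)
    (h0 : 0 < m) (hlt : m < n) : m • R ≠ 0 := fun hm => by
  have := Nat.le_of_dvd h0 (addOrderOf_dvd_iff_nsmul_eq_zero.mpr hm)
  omega

theorem nonempty_tateData {W : Affine F} {R : W.Point} (hord : 4 ≤ addOrderOf R) :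
    Nonempty (TateData W R) := by
  have hR0 : R ≠ 0 := by rintro rfl; simp at hord
  have h1 : 1 • R ≠ 0 := by simpa using hR0
  have h2 : 2 • R ≠ 0 := nsmul_ne_zero_of_lt rfl (by norm_num) (by omega)
  have h3 : 3 • R ≠ 0 := nsmul_ne_zero_of_lt rfl (by norm_num) (by omega)
  rcases R with _ | ⟨x₀, y₀, hR⟩
  · exact absurd rfl hR0
  set P : W.Point := Point.some x₀ y₀ hR with hP
  have hy : y₀ ≠ W.negY x₀ y₀ := fun h => h2 (by rw [two_nsmul]; exact Point.add_self_of_Y_eq h)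
  obtain ⟨ℓ, hℓdef⟩ : ∃ t : F, t = W.slope x₀ x₀ y₀ y₀ := ⟨_, rfl⟩
  have hA3' : 2 * y₀ + W.a₁ * x₀ + W.a₃ ≠ 0 := by
    intro h; apply hy; rw [negY]; linear_combination h
  have hℓ : ℓ * (2 * y₀ + W.a₁ * x₀ + W.a₃) =
      3 * x₀ ^ 2 + 2 * W.a₂ * x₀ + W.a₄ - W.a₁ * y₀ := by
    rw [hℓdef, slope_of_Y_ne rfl hy,
      show y₀ - W.negY x₀ y₀ = 2 * y₀ + W.a₁ * x₀ + W.a₃ by rw [negY]; ring,
      div_mul_cancel₀ _ hA3']
  obtain ⟨A₁, hA₁⟩ : ∃ t : F, t = W.a₁ + 2 * ℓ := ⟨_, rfl⟩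
  obtain ⟨A₃, hA₃⟩ : ∃ t : F, t = 2 * y₀ + W.a₁ * x₀ + W.a₃ := ⟨_, rfl⟩
  obtain ⟨A₂, hA₂⟩ : ∃ t : F, t = 3 * x₀ + W.a₂ - ℓ * (ℓ + W.a₁) := ⟨_, rfl⟩
  have hA3 : A₃ ≠ 0 := hA₃ ▸ hA3'
  rw [← hA₃] at hℓ
  -- `2R`
  obtain ⟨x₂, hx2⟩ : ∃ t : F, t = W.addX x₀ x₀ ℓ := ⟨_, rfl⟩
  obtain ⟨y₂, hy2⟩ : ∃ t : F, t = W.addY x₀ x₀ y₀ ℓ := ⟨_, rfl⟩
  obtain ⟨hn2, hP2⟩ : ∃ h, P + P = Point.some x₂ y₂ h := by
    subst hℓdef hx2 hy2; exact ⟨_, Point.add_self_of_Y_ne hy⟩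
  have hX2 : x₂ - x₀ = -A₂ := by rw [hx2, addX, hA₂]; ring
  have hY2 : y₂ - y₀ = -ℓ * (x₂ - x₀) - A₃ - W.a₁ * (x₂ - x₀) := by
    rw [hy2, addY, negAddY, negY, ← hx2, hA₃]; ring
  have hx20 : x₀ ≠ x₂ := by
    refine x_ne_of_point_ne (h₁ := hR) (h₂ := hn2) ?_ ?_
    · rw [← hP2]
      intro h
      exact hR0 (left_eq_add.mp h)
    · rw [← hP2]
      intro h
      exact h3 (by rw [show 3 = 1 + 2 from rfl, add_nsmul, one_nsmul, two_nsmul]; exact h)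
  have hA2 : A₂ ≠ 0 := fun h => hx20 (by linear_combination -hX2 + h)
  obtain ⟨u, hu⟩ : ∃ t : F, t = A₃ / A₂ := ⟨_, rfl⟩
  have hu0 : u ≠ 0 := hu ▸ div_ne_zero hA3 hA2
  obtain ⟨b, hb⟩ : ∃ t : F, t = -A₂ / u ^ 2 := ⟨_, rfl⟩
  obtain ⟨c, hc⟩ : ∃ t : F, t = 1 - A₁ / u := ⟨_, rfl⟩
  have hb0 : b ≠ 0 := hb ▸ div_ne_zero (neg_ne_zero.mpr hA2) (pow_ne_zero 2 hu0)
  have eA2 : A₂ = -(b * u ^ 2) := by rw [hb]; field_simp
  have eA1 : A₁ = u * (1 - c) := by rw [hc]; field_simp; ring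
  have eA3 : A₃ = -(b * u ^ 3) := by
    rw [show A₃ = u * A₂ by rw [hu]; field_simp, eA2]; ring
  -- `3R`
  obtain ⟨m, hm⟩ : ∃ t : F, t = W.slope x₀ x₂ y₀ y₂ := ⟨_, rfl⟩
  have hm' : m * (x₀ - x₂) = y₀ - y₂ := by
    rw [hm, slope_of_X_ne hx20, div_mul_cancel₀ _ (sub_ne_zero.mpr hx20)]
  have hmu : m = ℓ + u * c := by
    have h0 : x₀ - x₂ ≠ 0 := sub_ne_zero.mpr hx20
    apply mul_right_cancel₀ h0
    rw [show W.a₁ = A₁ - 2 * ℓ by rw [hA₁]; ring] at hY2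
    linear_combination hm' - hY2 + (A₁ + u * c) * hX2 + eA3 - (A₁ + u * c) * eA2
      + b * u ^ 2 * eA1
  obtain ⟨x₃, hx3⟩ : ∃ t : F, t = W.addX x₀ x₂ m := ⟨_, rfl⟩
  obtain ⟨y₃, hy3⟩ : ∃ t : F, t = W.addY x₀ x₂ y₀ m := ⟨_, rfl⟩
  have hX3 : x₃ - x₀ = u ^ 2 * c := by
    rw [hx3, addX, hmu]
    linear_combination -hX2 + hA₂ - (u * c) * hA₁ + (u * c) * eA1
  obtain ⟨hn3, hP3⟩ : ∃ h, P + Point.some x₂ y₂ hn2 = Point.some x₃ y₃ h := by
    rw [hm] at hx3 hy3; subst hx3 hy3; exact ⟨_, Point.add_of_X_ne hx20⟩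
  have hY3 : y₃ - y₀ = -m * (x₃ - x₀) - A₃ - W.a₁ * (x₃ - x₀) := by
    rw [hy3, addY, negAddY, negY, ← hx3, hA₃]; ring
  have e3 : 3 • P = P + (P + P) := by
    rw [show 3 = 1 + 2 from rfl, add_nsmul, one_nsmul, two_nsmul]
  refine ⟨⟨x₀, u, b, c, hu0, hb0, ?_, ?_, ?_⟩⟩
  · -- order five
    intro h5
    have hneg : P + (P + P) = -(P + P) := eq_neg_of_add_eq_zero_left <| by
      rw [← e3, ← two_nsmul, ← add_nsmul]; exact h5
    rw [hP2, hP3, Point.neg_some, Point.some.injEq] at hneg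
    have h : u ^ 2 * c = u ^ 2 * b := by
      linear_combination -hX3 + hneg.1 + hX2 - eA2
    exact mul_left_cancel₀ (pow_ne_zero 2 hu0) h
  · -- order seven
    intro h7
    have h4 : 4 • P ≠ 0 := by
      intro h
      have : addOrderOf P ∣ Nat.gcd 4 7 := Nat.dvd_gcd (addOrderOf_dvd_iff_nsmul_eq_zero.mpr h)
        (addOrderOf_dvd_iff_nsmul_eq_zero.mpr h7)
      have := Nat.le_of_dvd (by norm_num) this
      norm_num at this
      omega
    have hx30 : x₀ ≠ x₃ := by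
      refine x_ne_of_point_ne (h₁ := hR) (h₂ := hn3) ?_ ?_
      · rw [← hP3, ← hP2]
        intro h
        have h' : P + P = 0 := left_eq_add.mp h
        exact h2 (by rw [two_nsmul]; exact h')
      · rw [← hP3, ← hP2]
        intro h
        exact h4 (by rw [show 4 = 1 + 3 from rfl, add_nsmul, one_nsmul, e3]; exact h)
    have hc0 : c ≠ 0 := fun h => hx30 (by rw [h] at hX3; linear_combination -hX3)
    refine ⟨hc0, ?_⟩
    have hneg : P + (P + (P + P)) = -(P + (P + P)) := eq_neg_of_add_eq_zero_left <| by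
      rw [← e3, show P + 3 • P + 3 • P = (1 + 3 + 3) • P by
        rw [add_nsmul, add_nsmul, one_nsmul]]
      exact h7
    obtain ⟨m₂, hm2⟩ : ∃ t : F, t = W.slope x₀ x₃ y₀ y₃ := ⟨_, rfl⟩
    obtain ⟨hn4, hP4⟩ : ∃ h, P + Point.some x₃ y₃ hn3 =
        Point.some (W.addX x₀ x₃ m₂) (W.addY x₀ x₃ y₀ m₂) h := by
      subst hm2; exact ⟨_, Point.add_of_X_ne hx30⟩
    rw [hP2, hP3, hP4, Point.neg_some, Point.some.injEq] at hneg
    have hm2' : m₂ * (x₀ - x₃) = y₀ - y₃ := by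
      rw [hm2, slope_of_X_ne hx30, div_mul_cancel₀ _ (sub_ne_zero.mpr hx30)]
    have hm2u : m₂ = ℓ + u * (b / c - 1) := by
      have h0 : x₀ - x₃ ≠ 0 := sub_ne_zero.mpr hx30
      apply mul_right_cancel₀ h0
      rw [hm2', show x₀ - x₃ = -(u ^ 2 * c) by linear_combination -hX3]
      rw [show W.a₁ = A₁ - 2 * ℓ by rw [hA₁]; ring, hmu, hX3, eA3, eA1] at hY3
      field_simp
      linear_combination -hY3
    have h4x := hneg.1
    rw [addX, hm2u] at h4x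
    have h : u ^ 2 * ((b / c - 1) ^ 2 + (1 - c) * (b / c - 1) + b - 2 * c) = 0 := by
      linear_combination h4x + 2 * hX3 + (u * (b / c - 1)) * hA₁ - (u * (b / c - 1)) * eA1
        - hA₂ + eA2
    exact (mul_eq_zero.mp h).resolve_left (pow_ne_zero 2 hu0)
  · -- points of order two
    intro e f hT hTT
    have hf : f = W.negY e f := by
      by_contra hne
      rw [Point.add_self_of_Y_ne hne] at hTT
      exact Point.some_ne_zero _ hTT
    rw [negY] at hf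
    have hEq := (equation_iff e f).mp hT.1
    have hEq0 := (equation_iff x₀ y₀).mp hR.1
    obtain ⟨X, hX⟩ : ∃ t : F, t = e - x₀ := ⟨_, rfl⟩
    obtain ⟨Y, hY⟩ : ∃ t : F, t = f - y₀ - ℓ * X := ⟨_, rfl⟩
    have e2 : 2 * Y + A₁ * X + A₃ = 0 := by
      rw [hY, hX, hA₁, hA₃]; linear_combination hf
    have e1 : Y ^ 2 + A₁ * X * Y + A₃ * Y - X ^ 3 - A₂ * X ^ 2 = 0 := by
      rw [hA₃] at hℓ
      rw [hY, hX, hA₁, hA₂, hA₃]
      linear_combination hEq - hEq0 - (e - x₀) * hℓ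
    have h : u ^ 6 * (((1 - c) * (X / u ^ 2) - b) ^ 2 + 4 * (X / u ^ 2) ^ 3
        - 4 * b * (X / u ^ 2) ^ 2) = 0 := by
      have hq : (A₁ * X + A₃) ^ 2 + 4 * (X ^ 3 + A₂ * X ^ 2) = 0 := by
        linear_combination -4 * e1 + (2 * Y + A₁ * X + A₃) * e2
      rw [eA1, eA2, eA3] at hq
      field_simp
      linear_combination hq
    rw [hX] at h
    exact (mul_eq_zero.mp h).resolve_left (pow_ne_zero 6 hu0)

end FLTAgent.SmallPrimes
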